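import Fermat.Agent.S48.H136.ESKG
import Fermat.Agent.S18.H568.NormDescent

/-!
# S48 / RES (Tower A1) — PULL23, part 1 (helper616): descent of the Kummer core `CoreG`

Generic port of `S18/H568/D2.lean` (`coreStatement_of_dvd`; only its Mathlib-only file
`NormDescent` is imported) to helper136's generic core
`H136.CoreG F₀ A Fk m` (`F₀ ⊆ ℚ((q))` arbitrary):

* `isIntG_mono`   : integral series for `(F₀, Fk₀)` are integral series for `(F₁, Fk₁)` when
                    `F₀ ≤ F₁`, `Fk₀ ≤ Fk₁`;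
* `coreG_of_le`   : `CoreG F₁ A Fk₁ m → CoreG F₀ A Fk₀ m` when `[ℚ̄F₁ : ℚ̄F₀]` is finite and prime
                    to `m` (norm trick);
* `coreG_of_le_of_finrank` : the same with the degree given as a number `d`.

Use (p = 2, 3): `F₀ = F1 M`, `F₁ = F1p M a` (`(p, a) = (3, 2)`: degree `3`; `(2, 3)`: degree `4`),
where the admissible coordinate `t_a` lives; `m` is prime to `p`, hence to the degree.
-/

set_option autoImplicit false
set_option linter.style.haveILetI false

noncomputable section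

namespace Fermat.Agent.S48.H616

open ModularCurve AlgebraicCurve HahnSeries IntermediateField Module IsLocalRing
open Fermat.Agent.S18 (Qb)
open Fermat.Agent.S48.H136

variable {F₀ F₁ : IntermediateField ℚ (LaurentSeries ℚ)} {A : ValuationSubring Qb}
  {Fk₀ Fk₁ : IntermediateField (ResidueField A) (LaurentSeries (ResidueField A))}

/-- Monotonicity of `ℚ̄ · F₀` in `F₀`. -/
theorem lbcQb_mono (h : F₀ ≤ F₁) : laurentBaseChange Qb F₀ ≤ laurentBaseChange Qb F₁ := by
  rw [laurentBaseChange, IntermediateField.adjoin_le_iff]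
  rintro x ⟨y, hy, rfl⟩
  exact coeffEmb_mem_laurentBaseChange Qb (h hy)

/-- Integral series for `(F₀, Fk₀)` are integral series for every larger pair. -/
theorem isIntG_mono (h : F₀ ≤ F₁) (hk : Fk₀ ≤ Fk₁) {U : LaurentSeries A}
    (hU : IsIntG F₀ A Fk₀ U) : IsIntG F₁ A Fk₁ U :=
  ⟨lbcQb_mono h hU.1, hk hU.2.1, hU.2.2⟩

section Generic

variable {K Ω : Type*} [Field K] [Field Ω] [Algebra K Ω] {E F : IntermediateField K Ω}

/-- `extendScalars h` and `F` (with the `E`-algebra structure along the inclusion) are the same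
`E`-vector space. -/
def extendScalarsLinearEquiv616 (hEF : E ≤ F) :
    letI := (IntermediateField.inclusion hEF).toRingHom.toAlgebra
    ↥(extendScalars hEF) ≃ₗ[E] F :=
  letI := (IntermediateField.inclusion hEF).toRingHom.toAlgebra
  { toFun := fun x => ⟨x.1, (mem_extendScalars hEF).mp x.2⟩
    invFun := fun x => ⟨x.1, (mem_extendScalars hEF).mpr x.2⟩
    map_add' := fun _ _ => rfl
    map_smul' := fun _ _ => rfl
    left_inv := fun _ => rfl
    right_inv := fun _ => rfl }

theorem finrank_inclusion_eq_relfinrank616 (hEF : E ≤ F) :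
    letI := (IntermediateField.inclusion hEF).toRingHom.toAlgebra
    finrank E F = E.relfinrank F := by
  letI := (IntermediateField.inclusion hEF).toRingHom.toAlgebra
  rw [relfinrank_eq_finrank_of_le hEF]
  exact (extendScalarsLinearEquiv616 hEF).finrank_eq.symm

theorem finiteDimensional_inclusion616 (hEF : E ≤ F) (h0 : E.relfinrank F ≠ 0) :
    letI := (IntermediateField.inclusion hEF).toRingHom.toAlgebra
    FiniteDimensional E F := by
  letI := (IntermediateField.inclusion hEF).toRingHom.toAlgebra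
  apply FiniteDimensional.of_finrank_pos
  rw [finrank_inclusion_eq_relfinrank616 hEF]
  exact Nat.pos_of_ne_zero h0

/-- The inclusion `E ≤ F` of finite relative degree is an integral ring homomorphism. -/
theorem inclusion_isIntegral616 (hEF : E ≤ F) (hd0 : E.relfinrank F ≠ 0) :
    (IntermediateField.inclusion hEF).toRingHom.IsIntegral := by
  letI : Algebra E F := (IntermediateField.inclusion hEF).toRingHom.toAlgebra
  haveI hfd : FiniteDimensional E F :=
    finiteDimensional_inclusion616 hEF hd0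
  intro x
  exact (Algebra.IsIntegral.of_finite E F).isIntegral x

/-- Norm trick along an inclusion of intermediate fields (no instances on the subtypes are
needed by the caller). -/
theorem exists_pow_of_le616 (hEF : E ≤ F) (m : ℕ) (hd0 : E.relfinrank F ≠ 0)
    (hcop : Nat.Coprime (E.relfinrank F) m) (u : E) (hu : u ≠ 0) (c : K) (hc : c ≠ 0)
    (y : F) (hy : y ≠ 0)
    (h : IntermediateField.inclusion hEF u = algebraMap K F c * y ^ m) :
    ∃ (c' : K) (y' : E), c' ≠ 0 ∧ y' ≠ 0 ∧ u = algebraMap K E c' * y' ^ m := by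
  letI : Algebra E F := (IntermediateField.inclusion hEF).toRingHom.toAlgebra
  haveI : IsScalarTower K E F :=
    IsScalarTower.of_algebraMap_eq fun x => ((IntermediateField.inclusion hEF).commutes x).symm
  haveI hfd : FiniteDimensional E F :=
    finiteDimensional_inclusion616 hEF hd0
  have hfr : finrank E F = E.relfinrank F :=
    finrank_inclusion_eq_relfinrank616 hEF
  exact Fermat.Agent.S18.H568.exists_pow_of_norm_coprime m (by rw [hfr]; exact hcop)
    u hu c hc y hy h

end Generic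

/-- **Descent of the Kummer core** along `F₀ ≤ F₁` of finite degree prime to `m`. -/
theorem coreG_of_le (h : F₀ ≤ F₁) (hk : Fk₀ ≤ Fk₁) (m : ℕ)
    (hd0 : (laurentBaseChange Qb F₀).relfinrank (laurentBaseChange Qb F₁) ≠ 0)
    (hcop : Nat.Coprime
      ((laurentBaseChange Qb F₀).relfinrank (laurentBaseChange Qb F₁)) m) :
    CoreG F₁ A Fk₁ m → CoreG F₀ A Fk₀ m := by
  intro hM U₁ U₂ h₁ h₂ hred hord
  have hle := lbcQb_mono (F₀ := F₀) (F₁ := F₁) h
  set φ : laurentBaseChange Qb F₀ →ₐ[Qb] laurentBaseChange Qb F₁ :=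
    IntermediateField.inclusion hle with hφdef
  have hφint : φ.toRingHom.IsIntegral := inclusion_isIntegral616 hle hd0
  have h₁' : IsIntG F₁ A Fk₁ U₁ := isIntG_mono h hk h₁
  have h₂' : IsIntG F₁ A Fk₁ U₂ := isIntG_mono h hk h₂
  have e₁ : toFG h₁' = φ (toFG h₁) := rfl
  have e₂ : toFG h₂' = φ (toFG h₂) := rfl
  obtain ⟨c, y, hc, hy, hcy⟩ := hM U₁ U₂ h₁' h₂' hred (fun w => by
    rw [e₁, e₂, Place.ord_restrictAlong φ hφint w, Place.ord_restrictAlong φ hφint w, ← mul_sub]
    exact Dvd.dvd.mul_left (hord _) _)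
  have hn₁ := toFG_ne_zero h₁
  have hn₂ := toFG_ne_zero h₂
  have hu : toFG h₁ / toFG h₂ ≠ 0 := div_ne_zero hn₁ hn₂
  have hkey : φ (toFG h₁ / toFG h₂) = algebraMap Qb (laurentBaseChange Qb F₁) c * y ^ m := by
    have hn₂' : toFG h₂' ≠ 0 := toFG_ne_zero h₂'
    rw [map_div₀, ← e₁, ← e₂, hcy, mul_div_assoc, div_self hn₂', mul_one]
  obtain ⟨c', y', hc', hy', hfin⟩ :=
    exists_pow_of_le616 hle m hd0 hcop (toFG h₁ / toFG h₂) hu c hc y hy hkey
  refine ⟨c', y', hc', hy', ?_⟩
  rw [← hfin, div_mul_cancel₀ _ hn₂]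

/-- `coreG_of_le` with the degree given as a number. -/
theorem coreG_of_le_of_finrank (h : F₀ ≤ F₁) (hk : Fk₀ ≤ Fk₁) (m d : ℕ) (hd : d ≠ 0)
    (hdeg : (laurentBaseChange Qb F₀).relfinrank (laurentBaseChange Qb F₁) = d)
    (hcop : Nat.Coprime d m) : CoreG F₁ A Fk₁ m → CoreG F₀ A Fk₀ m :=
  coreG_of_le h hk m (by rw [hdeg]; exact hd) (by rw [hdeg]; exact hcop)

/-- The two cases needed for `p = 2, 3`: degree `3` (`p = 3`, `a = 2`) and degree `4`
(`p = 2`, `a = 3`), `m` prime to `p`. -/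
theorem coreG_of_le_three (h : F₀ ≤ F₁) (hk : Fk₀ ≤ Fk₁) (m : ℕ) (hm : ¬ 3 ∣ m)
    (hdeg : (laurentBaseChange Qb F₀).relfinrank (laurentBaseChange Qb F₁) = 3) :
    CoreG F₁ A Fk₁ m → CoreG F₀ A Fk₀ m :=
  coreG_of_le_of_finrank h hk m 3 (by norm_num) hdeg
    ((Nat.Prime.coprime_iff_not_dvd Nat.prime_three).mpr hm)

theorem coreG_of_le_four (h : F₀ ≤ F₁) (hk : Fk₀ ≤ Fk₁) (m : ℕ) (hm : ¬ 2 ∣ m)
    (hdeg : (laurentBaseChange Qb F₀).relfinrank (laurentBaseChange Qb F₁) = 4) :
    CoreG F₁ A Fk₁ m → CoreG F₀ A Fk₀ m := by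
  refine coreG_of_le_of_finrank h hk m 4 (by norm_num) hdeg ?_
  have h2 : Nat.Coprime 2 m := (Nat.Prime.coprime_iff_not_dvd Nat.prime_two).mpr hm
  have : (4 : ℕ) = 2 ^ 2 := by norm_num
  rw [this]
  exact Nat.Coprime.pow_left 2 h2

end Fermat.Agent.S48.H616

end
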