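import Fermat.Agent.S48.H616.CoreDescent
import Fermat.Agent.S48.H556.RawES1Top

/-!
# S48 / RES (Tower A1) / A1-RED — PULL23 (helper616): the primes `p = 2, 3` of `Core1Top`

Board `coord/S48-A1-RED.md`, rows R3 (D2-G, applied) and R6 (case split of the TOP assembly).

* `full_mul_le_F1p`   : `F0(M·a) ≤ F1p M a` for `a` prime — the S18 coordinates `t₂`, `t₃`
                        (elements of `F0(a) ≤ F0(M·a)`) live in `F1p M a`;
* `relfinrank_lbc_eq_finrankAlong` : `[ℚ̄F₁ : ℚ̄F₀]` (relfinrank) is `finrankAlong (inclBar h)`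
                        (the shape in which the degree `a + 1` is produced: Kum leaf N3);
* `coreG_pull`        : `finrankAlong (alpha1 M a)` prime to `ℓ` ⟹
                        `CoreG (F1p M a) A ⊤ ℓ → CoreG (F1 M) A ⊤ ℓ`;
* `coreG_pull_two`, `coreG_pull_three` : the two instances (`a = 2`, degree `3`, `ℓ ≠ 3`;
                        `a = 3`, degree `4`, `ℓ ≠ 2`);
* `core1Top_of_cases` : `H556.Core1Top` from
    - `CoreG (F1 M)` at the GOOD pairs `(M, p)`: `5 ≤ p`, or `p = 3 ∧ 2 ∣ M`, or `p = 2 ∧ 3 ∣ M`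
      (coordinate `j`, resp. `t₂`, `t₃ ∈ F0(M) ≤ F1 M`),
    - `CoreG (F1p M 2)` at `p = 3`, `2 ∤ M` and `CoreG (F1p M 3)` at `p = 2`, `3 ∤ M`,
    - the two degrees.
-/

set_option autoImplicit false
set_option linter.style.haveILetI false

noncomputable section

namespace Fermat.Agent.S48.H616

open ModularCurve AlgebraicCurve HahnSeries IntermediateField Module IsLocalRing
open Fermat.Agent.S18 (Qb)
open Fermat.Agent.S48.F1 Fermat.Agent.S48.H136 Fermat.Agent.S48.H556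

/-! ### The coordinates `t_a` live in `F1p M a` -/

/-- `F0(M·a) ≤ F1p M a` for `a` prime: `j(q^d)`, `d ∣ M·a`, is `j(q^{d'})` or `V_a j(q^{d'})` with
`d' ∣ M`. -/
theorem full_mul_le_F1p (M a : ℕ) [NeZero a] (ha : a.Prime) :
    modularFunctionFieldFull (M * a) ≤ F1p M a := by
  rw [modularFunctionFieldFull, IntermediateField.adjoin_le_iff]
  rintro x ⟨d, hd0, hd, rfl⟩
  by_cases hda : a ∣ d
  · -- `d = a * d'`, `d' ∣ M`
    obtain ⟨d', rfl⟩ := hda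
    have hd'0 : d' ≠ 0 := by
      rintro rfl
      exact (NeZero.ne (a * 0)) (by simp)
    haveI : NeZero d' := ⟨hd'0⟩
    have hd'M : d' ∣ M := by
      have h1 : a * d' ∣ a * M := by rwa [Nat.mul_comm a M]
      exact (Nat.mul_dvd_mul_iff_left ha.pos).mp h1
    have h2 := qExpand_mem_F1p M a (jqd_mem_F1 M hd'M)
    rwa [qExpand_qExpand] at h2
  · -- `d ∣ M`
    have hcop : Nat.Coprime d a := (Nat.Coprime.symm ((Nat.Prime.coprime_iff_not_dvd ha).mpr hda))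
    have hdM : d ∣ M := hcop.dvd_of_dvd_mul_right hd
    exact F1_le_F1p M a (jqd_mem_F1 M hdM)

/-- `F0(a) ≤ F1p M a` for `a` prime. -/
theorem full_le_F1p (M a : ℕ) [NeZero a] (ha : a.Prime) :
    modularFunctionFieldFull a ≤ F1p M a := by
  refine le_trans ?_ (full_mul_le_F1p M a ha)
  rw [modularFunctionFieldFull, IntermediateField.adjoin_le_iff]
  rintro x ⟨d, hd0, hd, rfl⟩
  exact jqd_mem_full (M * a) (Dvd.dvd.mul_left hd M)

/-! ### The degree, in the two shapes -/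

variable {F₀ F₁ : IntermediateField ℚ (LaurentSeries ℚ)}

/-- The relative degree `[ℚ̄F₁ : ℚ̄F₀]` is the degree along the inclusion. -/
theorem relfinrank_lbc_eq_finrankAlong (h : F₀ ≤ F₁) :
    (laurentBaseChange Qb F₀).relfinrank (laurentBaseChange Qb F₁)
      = finrankAlong Qb (inclBar Qb h) :=
  (finrank_inclusion_eq_relfinrank616 (lbc_mono Qb h)).symm

/-- **D2-G for the pair `F1 M ≤ F1p M a`** with the degree along `α`. -/
theorem coreG_pull (M a : ℕ) [NeZero a] (ℓ : ℕ) (A : ValuationSubring Qb)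
    (hd0 : finrankAlong Qb (alpha1 Qb M a) ≠ 0)
    (hcop : Nat.Coprime (finrankAlong Qb (alpha1 Qb M a)) ℓ) :
    CoreG (F1p M a) A (topK A) ℓ → CoreG (F1 M) A (topK A) ℓ := by
  have e := relfinrank_lbc_eq_finrankAlong (F1_le_F1p M a)
  exact coreG_of_le (F1_le_F1p M a) le_rfl ℓ (by rw [e]; exact hd0) (by rw [e]; exact hcop)

/-- `a = 2` (used at `p = 3`): degree `3`, `ℓ ≠ 3`. -/
theorem coreG_pull_two (M ℓ : ℕ) (hℓ : ¬ 3 ∣ ℓ) (A : ValuationSubring Qb)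
    (hdeg : finrankAlong Qb (alpha1 Qb M 2) = 3) :
    CoreG (F1p M 2) A (topK A) ℓ → CoreG (F1 M) A (topK A) ℓ :=
  coreG_pull M 2 ℓ A (by rw [hdeg]; norm_num)
    (by rw [hdeg]; exact (Nat.Prime.coprime_iff_not_dvd Nat.prime_three).mpr hℓ)

/-- `a = 3` (used at `p = 2`): degree `4`, `ℓ ≠ 2`. -/
theorem coreG_pull_three (M ℓ : ℕ) (hℓ : ¬ 2 ∣ ℓ) (A : ValuationSubring Qb)
    (hdeg : finrankAlong Qb (alpha1 Qb M 3) = 4) :
    CoreG (F1p M 3) A (topK A) ℓ → CoreG (F1 M) A (topK A) ℓ := by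
  refine coreG_pull M 3 ℓ A (by rw [hdeg]; norm_num) ?_
  rw [hdeg]
  have h2 : Nat.Coprime 2 ℓ := (Nat.Prime.coprime_iff_not_dvd Nat.prime_two).mpr hℓ
  have : (4 : ℕ) = 2 ^ 2 := by norm_num
  rw [this]
  exact Nat.Coprime.pow_left 2 h2

/-! ### The case split of `Core1Top` -/

/-- **`Core1Top` from the good pairs and the two pulled levels.** -/
theorem core1Top_of_cases
    (hgood : ∀ (M ℓ p : ℕ), M ≠ 0 → ℓ.Prime → p.Prime → ¬ p ∣ M * ℓ →
      (5 ≤ p ∨ (p = 3 ∧ 2 ∣ M) ∨ (p = 2 ∧ 3 ∣ M)) →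
      ∀ A : ValuationSubring Qb, A.LiesOverPrime p → CoreG (F1 M) A (topK A) ℓ)
    (h32 : ∀ (M ℓ : ℕ), M ≠ 0 → ℓ.Prime → ¬ 3 ∣ M * ℓ → ¬ 2 ∣ M →
      ∀ A : ValuationSubring Qb, A.LiesOverPrime 3 → CoreG (F1p M 2) A (topK A) ℓ)
    (h23 : ∀ (M ℓ : ℕ), M ≠ 0 → ℓ.Prime → ¬ 2 ∣ M * ℓ → ¬ 3 ∣ M →
      ∀ A : ValuationSubring Qb, A.LiesOverPrime 2 → CoreG (F1p M 3) A (topK A) ℓ)
    (hdeg2 : ∀ M : ℕ, M ≠ 0 → ¬ 2 ∣ M → finrankAlong Qb (alpha1 Qb M 2) = 3)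
    (hdeg3 : ∀ M : ℕ, M ≠ 0 → ¬ 3 ∣ M → finrankAlong Qb (alpha1 Qb M 3) = 4) :
    Core1Top := by
  intro M ℓ p hM hℓ hp hpMℓ A hA
  have hpℓ : ¬ p ∣ ℓ := fun h => hpMℓ (Dvd.dvd.mul_left h M)
  by_cases h5 : 5 ≤ p
  · exact hgood M ℓ p hM hℓ hp hpMℓ (Or.inl h5) A hA
  · have hp23 : p = 2 ∨ p = 3 := by
      have hlt : p < 5 := by omega
      have h2 := hp.two_le
      interval_cases p
      · exact Or.inl rfl
      · exact Or.inr rfl
      · exact absurd hp (by norm_num)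
    rcases hp23 with rfl | rfl
    · -- `p = 2`
      by_cases h3 : 3 ∣ M
      · exact hgood M ℓ 2 hM hℓ hp hpMℓ (Or.inr (Or.inr ⟨rfl, h3⟩)) A hA
      · exact coreG_pull_three M ℓ hpℓ A (hdeg3 M hM h3) (h23 M ℓ hM hℓ hpMℓ h3 A hA)
    · -- `p = 3`
      by_cases h2 : 2 ∣ M
      · exact hgood M ℓ 3 hM hℓ hp hpMℓ (Or.inr (Or.inl ⟨rfl, h2⟩)) A hA
      · exact coreG_pull_two M ℓ hpℓ A (hdeg2 M hM h2) (h32 M ℓ hM hℓ hpMℓ h2 A hA)

end Fermat.Agent.S48.H616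

end
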